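import Fermat.Agent.RT.Lift59.Scalar.Residual
import Fermat.Agent.RT.Lift59.Mazur.Forms
import Fermat.Agent.RT.Lift59.Mazur.AuxPrime
import Fermat.Agent.RT.Glue.Approx
import Fermat.Agent.ConductorLevel.Raise
import Fermat.Agent.LevelRaising.Residual

/-!
# The level and the flipped primes of a semistable model

The level is the product of the bad primes which are not small and the flipped primes are the small
bad primes, `p` first. Residual modularity at a divisor of the level gives a congruent form at the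
level; the residual system has the Frobenius polynomials and is not Eisenstein in any class.
-/

set_option autoImplicit false

noncomputable section

open WeierstrassCurve CongruenceSubgroup IsLocalRing
open scoped WeierstrassCurve.Affine

namespace Fermat.Agent.RT.Lift59.Curve

variable (W : WeierstrassCurve ℤ) (p : ℕ)

/-- The bad primes which are not small. -/
def bigPrimes : Finset ℕ := by
  classical exact W.Δ.natAbs.primeFactors.filter fun v => ¬ SmallAt W p v

/-- The small bad primes. -/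
def smallPrimes : Finset ℕ := by
  classical exact W.Δ.natAbs.primeFactors.filter fun v => SmallAt W p v

/-- The level before the flips. -/
def baseLevel : ℕ := ∏ v ∈ bigPrimes W p, v

/-- The flipped primes, `p` first. -/
def flips : List ℕ :=
  (if p ∈ smallPrimes W p then [p] else []) ++ ((smallPrimes W p).erase p).toList

/-- The number of flips. -/
def numFlips : ℕ := (flips W p).length

/-- The `i`-th flipped prime. -/
def flip (i : ℕ) : ℕ := (flips W p).getD i 2

variable {W p}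

theorem mem_bigPrimes (hΔ : W.Δ ≠ 0) {v : ℕ} :
    v ∈ bigPrimes W p ↔ v.Prime ∧ (v : ℤ) ∣ W.Δ ∧ ¬ SmallAt W p v := by
  classical
  rw [bigPrimes, Finset.mem_filter, Nat.mem_primeFactors, Int.natCast_dvd]
  simp only [ne_eq, Int.natAbs_eq_zero, hΔ, not_false_eq_true, and_true]
  tauto

theorem mem_smallPrimes (hΔ : W.Δ ≠ 0) {v : ℕ} :
    v ∈ smallPrimes W p ↔ v.Prime ∧ (v : ℤ) ∣ W.Δ ∧ SmallAt W p v := by
  classical
  rw [smallPrimes, Finset.mem_filter, Nat.mem_primeFactors, Int.natCast_dvd]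
  simp only [ne_eq, Int.natAbs_eq_zero, hΔ, not_false_eq_true, and_true]
  tauto

/-- A prime which is not small is bad. -/
theorem dvd_Δ_of_not_smallAt {v : ℕ} (h : ¬ SmallAt W p v) : (v : ℤ) ∣ W.Δ := by
  by_contra hd
  exact h (by rw [SmallAt, padicValInt.eq_zero_of_not_dvd hd]; exact dvd_zero p)

theorem mem_flips {v : ℕ} : v ∈ flips W p ↔ v ∈ smallPrimes W p := by
  rw [flips, List.mem_append, Finset.mem_toList, Finset.mem_erase]
  by_cases h : v = p
  · subst h; by_cases hm : v ∈ smallPrimes W v <;> simp [hm]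
  · by_cases hm : p ∈ smallPrimes W p <;> simp [hm, h]

theorem nodup_flips : (flips W p).Nodup := by
  rw [flips, List.nodup_append]
  refine ⟨by split_ifs <;> simp, Finset.nodup_toList _, fun a ha b hb he => ?_⟩
  rw [Finset.mem_toList, Finset.mem_erase] at hb
  split_ifs at ha <;> simp_all

theorem flip_eq_getElem {i : ℕ} (hi : i < numFlips W p) : flip W p i = (flips W p)[i] :=
  List.getD_eq_getElem _ _ hi

theorem flip_mem {i : ℕ} (hi : i < numFlips W p) : flip W p i ∈ smallPrimes W p := by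
  rw [flip_eq_getElem hi, ← mem_flips]
  exact List.getElem_mem hi

theorem exists_flip_eq {v : ℕ} (hv : v ∈ smallPrimes W p) :
    ∃ i < numFlips W p, flip W p i = v := by
  obtain ⟨i, hi, he⟩ := List.mem_iff_getElem.1 (mem_flips.2 hv)
  exact ⟨i, hi, (flip_eq_getElem hi).trans he⟩

theorem flip_prime (hΔ : W.Δ ≠ 0) (i : ℕ) : (flip W p i).Prime := by
  by_cases hi : i < numFlips W p
  · exact ((mem_smallPrimes hΔ).1 (flip_mem hi)).1
  · rw [flip, List.getD_eq_default _ _ (not_lt.1 hi)]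
    exact Nat.prime_two

theorem flip_inj {i : ℕ} (hi : i < numFlips W p) {j : ℕ} (hj : j < numFlips W p)
    (h : flip W p i = flip W p j) : i = j := by
  rw [flip_eq_getElem hi, flip_eq_getElem hj] at h
  exact (nodup_flips.getElem_inj_iff).1 h

/-- A flip at `p` comes first. -/
theorem flip_p_first {i : ℕ} (hi : i < numFlips W p) (h : flip W p i = p) : i = 0 := by
  have hp : p ∈ smallPrimes W p := by
    have h' := flip_mem hi
    rwa [h] at h'
  have h0 : 0 < numFlips W p := by omega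
  refine flip_inj hi h0 (h.trans ?_)
  simp [flip, flips, hp]

theorem squarefree_prod_of_prime (s : Finset ℕ) (hs : ∀ x ∈ s, x.Prime) :
    Squarefree (∏ x ∈ s, x) ∧ ∀ v : ℕ, v.Prime → (v ∣ ∏ x ∈ s, x ↔ v ∈ s) := by
  have hpf := Nat.primeFactors_prod hs
  refine ⟨?_, fun v hv => ?_⟩
  · refine Nat.squarefree_iff_factorization_le_one
      (Finset.prod_ne_zero_iff.2 fun x hx => (hs x hx).ne_zero) |>.2 fun v => ?_
    rw [Nat.factorization_prod_apply fun x hx => (hs x hx).ne_zero,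
      Finset.sum_congr rfl fun x hx => by rw [(hs x hx).factorization, Finsupp.single_apply],
      Finset.sum_ite_eq']
    split_ifs <;> omega
  · refine ⟨fun h => ?_, fun h => Finset.dvd_prod_of_mem _ h⟩
    rw [← hpf]
    exact Nat.mem_primeFactors.2 ⟨hv, h, Finset.prod_ne_zero_iff.2 fun x hx => (hs x hx).ne_zero⟩

theorem squarefree_baseLevel (hΔ : W.Δ ≠ 0) : Squarefree (baseLevel W p) :=
  (squarefree_prod_of_prime _ fun _ hx => ((mem_bigPrimes hΔ).1 hx).1).1

theorem dvd_baseLevel_iff (hΔ : W.Δ ≠ 0) {v : ℕ} (hv : v.Prime) :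
    v ∣ baseLevel W p ↔ (v : ℤ) ∣ W.Δ ∧ ¬ SmallAt W p v := by
  rw [baseLevel, (squarefree_prod_of_prime _ fun _ hx => ((mem_bigPrimes hΔ).1 hx).1).2 v hv,
    mem_bigPrimes hΔ]
  exact and_iff_right hv

theorem flip_not_dvd (hΔ : W.Δ ≠ 0) {i : ℕ} (hi : i < numFlips W p) :
    ¬ flip W p i ∣ baseLevel W p := fun h =>
  ((dvd_baseLevel_iff hΔ (flip_prime hΔ i)).1 h).2 ((mem_smallPrimes hΔ).1 (flip_mem hi)).2.2

/-- The top level is the product of the bad primes. -/
theorem dvd_baseLevel_mul_iff (hΔ : W.Δ ≠ 0) {v : ℕ} (hv : v.Prime) :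
    v ∣ baseLevel W p * ∏ i ∈ Finset.range (numFlips W p), flip W p i ↔ (v : ℤ) ∣ W.Δ := by
  rw [hv.dvd_mul, dvd_baseLevel_iff hΔ hv, Prime.dvd_finsetProd_iff hv.prime]
  constructor
  · rintro (h | ⟨i, hi, hd⟩)
    · exact h.1
    · rw [Nat.prime_dvd_prime_iff_eq hv (flip_prime hΔ i)] at hd
      subst hd
      exact ((mem_smallPrimes hΔ).1 (flip_mem (Finset.mem_range.1 hi))).2.1
  · intro h
    by_cases hs : SmallAt W p v
    · obtain ⟨i, hi, rfl⟩ := exists_flip_eq ((mem_smallPrimes hΔ).2 ⟨hv, h, hs⟩)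
      exact Or.inr ⟨i, Finset.mem_range.2 hi, dvd_rfl⟩
    · exact Or.inl ⟨h, hs⟩

variable (W p) in
/-- The primes outside which the residual system has the Frobenius polynomials. -/
def badPrimes : Finset ℕ :=
  (baseLevel W p * (∏ i ∈ Finset.range (numFlips W p), flip W p i) * p).primeFactors

variable [Fact p.Prime]

theorem mem_badPrimes (hΔ : W.Δ ≠ 0) {v : ℕ} :
    v ∈ badPrimes W p ↔ v.Prime ∧ ((v : ℤ) ∣ W.Δ ∨ v = p) := by
  have hp : p.Prime := Fact.out
  rw [badPrimes, Nat.mem_primeFactors]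
  refine ⟨fun ⟨hv, hd, _⟩ => ⟨hv, (hv.dvd_mul.1 hd).imp (dvd_baseLevel_mul_iff hΔ hv).1
    (Nat.prime_dvd_prime_iff_eq hv hp).1⟩, fun ⟨hv, hd⟩ => ⟨hv, ?_, ?_⟩⟩
  · exact hd.elim (fun h => ((dvd_baseLevel_mul_iff hΔ hv).2 h).mul_right _)
      fun h => h ▸ dvd_mul_left _ _
  · exact mul_ne_zero (mul_ne_zero (squarefree_baseLevel hΔ).ne_zero
      (Finset.prod_ne_zero_iff.2 fun i _ => (flip_prime hΔ i).ne_zero)) hp.ne_zero

variable {k : Type} [Field k] [Algebra (ZMod p) k]

/-- Residual modularity at a level all whose primes are not small gives a congruent form at the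
level. -/
theorem isCongruentLevel_baseLevel [Finite k] (hΔ : W.Δ ≠ 0) {M : ℕ} (hM : SeedLevel W p M)
    (hsq : Squarefree M) (hbig : ∀ v : ℕ, v.Prime → v ∣ M → ¬ SmallAt W p v) :
    IsCongruentLevel (badPrimes W p) (wAbar W k) (baseLevel W p) := by
  have hML : M ∣ baseLevel W p := by
    rw [← Nat.prod_primeFactors_of_squarefree hsq]
    exact Finset.prod_dvd_prod_of_subset _ _ _ fun v hv =>
      (mem_bigPrimes hΔ).2 ⟨(Nat.mem_primeFactors.1 hv).1,
        dvd_Δ_of_not_smallAt (hbig v (Nat.mem_primeFactors.1 hv).1 (Nat.mem_primeFactors.1 hv).2.1),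
        hbig v (Nat.mem_primeFactors.1 hv).1 (Nat.mem_primeFactors.1 hv).2.1⟩
  obtain ⟨g, hg, φ, hφ⟩ := isCongruentLevel_of_isResiduallyModularOfLevel (k := k)
    (S := badPrimes W p) (fun ℓ hℓ h => (mem_badPrimes hΔ).2 ⟨hℓ, by
      rcases h with h | h | h
      · exact Or.inr h
      · exact Or.inl (dvd_Δ_of_not_smallAt (hbig ℓ hℓ h))
      · exact Or.inl h⟩) hM.res
  obtain ⟨g', hg', hgg⟩ := ConductorLevel.exists_raise (squarefree_baseLevel hΔ) hML hg
  refine ⟨g', hg', φ, fun ℓ hℓ hℓS a ha => hφ ℓ hℓ hℓS a (ha.trans (hgg ℓ hℓ fun h => hℓS ?_))⟩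
  exact (mem_badPrimes hΔ).2 ⟨hℓ, Or.inl ((dvd_baseLevel_iff hΔ hℓ).1 h).1⟩

end Fermat.Agent.RT.Lift59.Curve

namespace Fermat.Agent.RT.Lift59.Curve

variable {W : WeierstrassCurve ℤ} {p : ℕ} [Fact p.Prime]
  {O : Type} [CommRing O] [IsDomain O] [IsDiscreteValuationRing O]
  [Algebra (ZMod p) (ResidueField O)]

/-- The residual system has the Frobenius polynomials of the residual representation. -/
theorem hasCharpolys_wRho [IsAdicComplete (maximalIdeal O) O] [Finite (ResidueField O)]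
    [CharZero O] (hΔ : W.Δ ≠ 0) :
    Glue.HasCharpolys (badPrimes W p) (wAbar W (ResidueField O))
      (wRho W p hΔ (ResidueField O)) := by
  intro ℓ hℓ hℓS A hA s hs
  rw [mem_badPrimes hΔ] at hℓS
  exact charpoly_wRho_frobenius hℓ (fun h => hℓS ⟨hℓ, Or.inl h⟩)
    (fun h => hℓS ⟨hℓ, Or.inr h⟩) hA hs

variable {k : Type} [Field k] [Algebra (ZMod p) k]

/-- The residual system is not Eisenstein in any class `1` modulo `m`. -/
theorem exists_wAbar_ne_of_dvd (hp2 : p ≠ 2) (hΔ : W.Δ ≠ 0) (hirr : W.ModRepIsIrreducible p)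
    (m : ℕ) (hm : m ≠ 0) (S : Finset ℕ) :
    ∃ ℓ : ℕ, ℓ.Prime ∧ ℓ ∉ S ∧ (m : ℤ) ∣ (ℓ : ℤ) - 1 ∧ wAbar W k ℓ ≠ 1 + (ℓ : k) := by
  classical
  have hp : p.Prime := Fact.out
  have : (W.map (Int.castRingHom ℚ)).IsElliptic :=
    ⟨by rw [map_Δ]; exact isUnit_iff_ne_zero.2 (by simpa using hΔ)⟩
  have hmodel : W.IsIntegralModelOf (W.map (Int.castRingHom ℚ)) := ⟨1, one_smul _ _⟩
  set M := m * p * ∏ x ∈ S.filter Nat.Prime, x
  have hM : M ≠ 0 := mul_ne_zero (mul_ne_zero hm hp.ne_zero)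
    (Finset.prod_ne_zero_iff.2 fun x hx => (Finset.mem_filter.1 hx).2.ne_zero)
  obtain ⟨ℓ, hℓ, -, -, hℓM, hℓ1, hℓa⟩ :=
    LevelRaising.exists_special_prime hmodel hp hp2 hirr M hM
  refine ⟨ℓ, hℓ, fun h => hℓM ((Finset.dvd_prod_of_mem _ (Finset.mem_filter.2 ⟨h, hℓ⟩)).mul_left _),
    (Int.natCast_dvd_natCast.2 ((dvd_mul_right m p).mul_right _)).trans hℓ1, fun h => hℓa ?_⟩
  have h1 : ((ℓ : ℤ) : ZMod p) = 1 := by
    have h' := (ZMod.intCast_zmod_eq_zero_iff_dvd _ p).2
      ((Int.natCast_dvd_natCast.2 ((dvd_mul_left p m).mul_right _)).trans hℓ1)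
    rwa [Int.cast_sub, Int.cast_one, sub_eq_zero] at h'
  rw [Int.cast_natCast] at h1
  refine (ZMod.intCast_zmod_eq_zero_iff_dvd _ p).1 ((algebraMap (ZMod p) k).injective ?_)
  rw [wAbar, ← map_natCast (algebraMap (ZMod p) k), h1, map_one] at h
  rw [Int.cast_sub, map_sub, map_intCast, h, Int.cast_ofNat, map_ofNat, map_zero]
  norm_num

/-- For `p = 3` there are primes `2 (mod 3)` with residually nonzero coefficient. -/
theorem three_or_exists_wAbar_ne (hs : Setting W p) :
    5 ≤ p ∨ ∀ S : Finset ℕ, ∃ r : ℕ, r.Prime ∧ r % 3 = 2 ∧ r ∉ S ∧ wAbar W k r ≠ 0 := by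
  obtain ⟨hp, hp2⟩ := hs.hp
  rcases (show p = 3 ∨ 5 ≤ p by
    have := hp.two_le
    rcases Nat.lt_or_ge p 5 with h | h
    · interval_cases p <;> simp_all (config := { decide := true })
    · exact Or.inr h) with rfl | h5
  · refine Or.inr fun S => ?_
    obtain ⟨l, hl, hlS, -, hl3, -, hla⟩ :=
      MazurQ.exists_aux_prime (p := 3) (by norm_num) hs.hΔ hs.hW hs.hirr S
    refine ⟨l, hl, hl3, hlS, fun h => hla ((algebraMap (ZMod 3) k).injective ?_)⟩
    rw [map_intCast, map_zero]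
    exact h
  · exact Or.inl h5

end Fermat.Agent.RT.Lift59.Curve

end
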