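import Fermat.Agent.RT.Lift59.Galois.OrdLine
import Fermat.Agent.RT.Lift59.Galois.ResidualTau
import Fermat.Agent.RT.Lift59.UnitRoot.Main
import Fermat.Agent.RT.Lift59.Scalar.Residual

/-!
# The facts at a multiplicative prime `p` of a semistable model

The square of the quotient character of a strictly ordinary representation is one, the residual
representation is trivial at `τ` exactly when `p` is small, and congruent forms of level prime to
`p` have coefficient `± 1` at `p`.
-/

set_option autoImplicit false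
set_option linter.style.haveILetI false

noncomputable section

namespace Fermat.Agent.RT.Lift59.Curve

open IsLocalRing Module Fermat.Agent.Deform
open Fermat.Agent.Arith (QBar)
open Fermat.Agent.CFT.Local
open scoped Matrix

/-- The square of the quotient character of a strictly ordinary representation is one. -/
theorem zAt_sq_eq_one {O : Type} [CommRing O] [IsDomain O] [IsDiscreteValuationRing O]
    [CharZero O] [IsAdicComplete (maximalIdeal O) O] [Finite (ResidueField O)] {p : ℕ}
    [Fact p.Prime] [CharP (ResidueField O) p]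
    (hp2 : p ≠ 2) {r : Gal →* M2 O} {hc : IsCont r} (hdet : (toRep r hc).DetIsCyclotomic p)
    (hs : (toRep r hc).IsStrictOrdinaryAt p) {w : Fin 2 → O} {i : Fin 2} (hi : IsUnit (w i))
    (hw : Galois.OrdVec (padicPlace p) r w) {σ : Gal}
    (hσ : σ ∈ (padicPlace p).decompositionSubgroup ℚ) :
    Galois.zAt r w i σ ^ 2 = 1 := by
  have hP := CFT.Local.padicPlace_liesOverPrime p
  have hdet' : ∀ (n : ℕ) (τ : Gal) (a : ℕ), (∀ μ : QBar, μ ^ p ^ n = 1 → τ μ = μ ^ a) →
      (r τ).det - (a : O) ∈ Ideal.span {(p : O) ^ n} := fun n τ a ha => by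
    have h := hdet.2 n τ a ha
    rwa [show LinearMap.det ((toRep r hc).ρ τ) = (r τ).det from LinearMap.det_toLin' _,
      Nat.cast_pow] at h
  obtain ⟨L, ⟨b, hb⟩, -, hI, hxz⟩ := hs.2 (padicPlace p) hP
  subst hb
  set e : Fin 2 → O := b 0
  have hI' : ∀ τ ∈ (padicPlace p).inertiaSubgroupIn ℚ, ∀ v : Fin 2 → O,
      ∃ c : O, c • e = r τ *ᵥ v - v := fun τ hτ v =>
    Submodule.mem_span_singleton.1 (hI τ hτ v)
  -- an element of inertia with nontrivial determinant puts `w` on the line
  obtain ⟨c₀, hc₀⟩ : ∃ c₀ : O, c₀ • e = w := by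
    have hneg : (-1 : (ZMod p)ˣ) ≠ 1 := fun h => by
      haveI : Fact (2 < p) := ⟨lt_of_le_of_ne (Fact.out : p.Prime).two_le hp2.symm⟩
      exact ZMod.neg_one_ne_one (by simpa using congrArg Units.val h)
    obtain ⟨t, ht, hcyc⟩ := EC.Rep.exists_mem_inertia_cyclotomicHom_eq hP (-1 : (ZMod p)ˣ)
    obtain ⟨a, ha⟩ := Glue.exists_exponent (p := p) t 1
    haveI : NeZero p := ⟨(Fact.out : p.Prime).ne_zero⟩
    have hap : (a : ZMod p) ≠ 1 := fun h => hneg (hcyc ▸ Units.ext (by
      rw [Arith.cyclotomicHom_apply, Arith.modularCyclotomicCharacter_eq_natCast _ fun μ hμ =>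
        ha μ (by rw [pow_one]; exact hμ)]
      exact h))
    have hd : IsUnit ((r t).det - 1) := by
      rw [← notMem_maximalIdeal, ← residue_eq_zero_iff, map_sub, map_one, sub_eq_zero]
      intro h
      have h1 := hdet' 1 t a ha
      rw [pow_one] at h1
      have h2 : residue O ((r t).det - (a : O)) = 0 := by
        obtain ⟨y, hy⟩ := Ideal.mem_span_singleton'.1 h1
        rw [← hy, map_mul, map_natCast, CharP.cast_eq_zero, mul_zero]
      rw [map_sub, h, map_natCast, sub_eq_zero] at h2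
      exact hap (Nat.cast_one (R := ZMod p) ▸ (ZMod.natCast_eq_natCast_iff' _ _ _).2
        ((CharP.natCast_eq_natCast (ResidueField O) p).1 (h2.symm.trans Nat.cast_one.symm)))
    obtain ⟨c, hce⟩ := hI' t ht w
    refine ⟨Ring.inverse ((r t).det - 1) * c, ?_⟩
    rw [← smul_smul, hce, hw.mulVec_eq hi (Galois.inertia_le _ ht), hw.x_of_inert hi ht]
    funext k
    simp only [Pi.smul_apply, Pi.sub_apply, smul_eq_mul]
    linear_combination w k * Ring.inverse_mul_cancel _ hd
  obtain ⟨x, z, hx, hz, hcong⟩ := hxz σ hσ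
  have hwL : w ∈ O ∙ e := Submodule.mem_span_singleton.2 ⟨c₀, hc₀⟩
  have hxw : r σ *ᵥ w = x • w := hx w hwL
  have hxeq : Galois.xAt r w i σ = x := by
    refine hi.mul_right_cancel ?_
    have h1 := congrFun (hw.mulVec_eq hi hσ) i
    rw [congrFun hxw i] at h1
    simpa using h1.symm
  have hzeq : Galois.zAt r w i σ = z := by
    refine (Galois.isUnit_cross_other hi).mul_right_cancel ?_
    rw [← hw.cross_eq hi hσ, ← Galois.cross_smul_left, ← sub_eq_zero, ← Galois.cross_sub_left]
    set v : Fin 2 → O := r σ *ᵥ Galois.other i - z • Galois.other i with hv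
    obtain ⟨c, hce⟩ : ∃ c : O, c • e = v :=
      Submodule.mem_span_singleton.1 (hz (Galois.other i : Fin 2 → O))
    rw [← hce, ← hc₀, Galois.cross_smul_left, Galois.cross_smul_right, Galois.cross_self, mul_zero,
      mul_zero]
  rw [hzeq]
  have hpO : (p : O) ∈ maximalIdeal O := by
    rw [← residue_eq_zero_iff, map_natCast]
    exact CharP.cast_eq_zero _ p
  rw [← Nat.cast_one]
  refine Patch.eq_natCast_of_forall_congr hpO fun n => ?_
  rcases Nat.eq_zero_or_pos n with rfl | hn
  · rw [pow_zero, Ideal.span_singleton_one]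
    trivial
  obtain ⟨a, ha⟩ := Glue.exists_exponent (p := p) σ n
  have h1 := hdet' n σ a ha
  rw [← hw.x_mul_z hi hσ, hxeq, hzeq] at h1
  have h2 := hcong n a ha
  rw [Nat.cast_pow] at h2
  have hau : IsUnit (a : O) := by
    rw [← notMem_maximalIdeal, ← residue_eq_zero_iff]
    intro h0
    have hu : IsUnit (r σ).det := (Group.isUnit σ).map (Matrix.detMonoidHom.comp r)
    have h3 : residue O (x * z - a) = 0 := by
      obtain ⟨y, hy⟩ := Ideal.mem_span_singleton'.1 h1
      rw [← hy, map_mul, map_pow, map_natCast, CharP.cast_eq_zero, zero_pow hn.ne', mul_zero]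
    rw [map_sub, h0, sub_zero, ← hxeq, ← hzeq, hw.x_mul_z hi hσ, residue_eq_zero_iff] at h3
    exact (mem_maximalIdeal _).1 h3 hu
  rw [Nat.cast_one]
  refine (Ideal.unit_mul_mem_iff_mem _ hau).1 ?_
  rw [show (a : O) * (z ^ 2 - 1) = (x * z - a) - z * (x - a * z) by ring]
  exact Ideal.sub_mem _ h1 (Ideal.mul_mem_left _ z h2)

/-- The residual representation is trivial at `τ` exactly when `p` is small. -/
theorem wMat_tauStar_eq_one_iff {W : WeierstrassCurve ℤ} {p : ℕ} [Fact p.Prime] (hp2 : p ≠ 2)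
    {hΔ : W.Δ ≠ 0} (hW : W.IsSemistableModel) (hdvd : (p : ℤ) ∣ W.Δ) {k : Type} [Field k]
    [Algebra (ZMod p) k] (bb : Basis (Fin 2) k (wRho W p hΔ k).V) {τ : Gal}
    (hτ : Galois.IsTauStar (padicPlace p) p τ) : wMat bb τ = 1 ↔ SmallAt W p p := by
  classical
  rw [← Galois.residualTauInput W p Fact.out hp2 hΔ hW hdvd (padicPlace p)
    (CFT.Local.padicPlace_liesOverPrime p) τ hτ, wMat_apply,
    ← map_one (LinearMap.toMatrixAlgEquiv bb), (LinearMap.toMatrixAlgEquiv bb).injective.eq_iff,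
    wRho_eq_one_iff]
  refine ⟨fun h x hx => ?_, fun h => LinearMap.ext fun x => Subtype.ext ?_⟩
  · exact congrArg Subtype.val (LinearMap.congr_fun h ⟨x, (Submodule.mem_torsionBy_iff _ _).mpr hx⟩)
  · exact h x.1 ((Submodule.mem_torsionBy_iff _ _).mp x.2)

/-- Congruent forms of level prime to `p` have coefficient `± 1` at `p`. -/
theorem unitRoot_wAbar {W : WeierstrassCurve ℤ} {p : ℕ} [Fact p.Prime] (hs : Setting W p)
    (hdvd : (p : ℤ) ∣ W.Δ) {k : Type} [Field k] [Algebra (ZMod p) k] (M : ℕ) [NeZero M]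
    (g : CuspForm (CongruenceSubgroup.Gamma0 M) 2) (hg : g.IsNormalizedEigenform) (hpM : ¬ p ∣ M)
    (φ : integralClosure ℤ ℂ →+* AlgebraicClosure k) (T : Finset ℕ)
    (hout : ∀ l : ℕ, l.Prime → l ∉ T → ∀ b : integralClosure ℤ ℂ,
      (b : ℂ) = ModularFormClass.qCoeff g l → φ b = algebraMap k _ (wAbar W k l))
    (c : integralClosure ℤ ℂ) (hc : (c : ℂ) = ModularFormClass.qCoeff g p) : φ c ^ 2 = 1 :=
  UnitRoot.sq_map_qCoeff_eq_one hs hdvd hpM hg φ T hout hc

end Fermat.Agent.RT.Lift59.Curve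

end
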