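import Fermat.Agent.RT.Lift59.Lift.Curve
import Fermat.Agent.RT.Lift59.Scalar.Residual
import Fermat.Agent.GaloisReps.PadicHom
import Fermat.Agent.CFT.Tangent.BaseChange

/-!
# The Tate module of a semistable model over a coefficient ring
-/

set_option autoImplicit false
set_option linter.style.haveILetI false

noncomputable section

namespace Fermat.Agent.RT.Lift59.Curve

open IsLocalRing Fermat.Agent.Deform
open Fermat.Agent.Arith (QBar GQ)

theorem isStrictOrdinaryAt_of_isEquiv {A : Type} [CommRing A] [IsLocalRing A] {p : ℕ}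
    {ρ₁ ρ₂ : GaloisRepAdic A} (he : ρ₁.IsEquiv ρ₂) (h : ρ₁.IsStrictOrdinaryAt p) :
    ρ₂.IsStrictOrdinaryAt p := by
  refine ⟨h.1, fun P hP => ?_⟩
  obtain ⟨e⟩ := he
  obtain ⟨L, ⟨b, rfl⟩, hD, hI, hxz⟩ := h.2 P hP
  have hmem : ∀ {v : ρ₁.V}, v ∈ A ∙ b 0 → e.toLinearEquiv v ∈ A ∙ b.map e.toLinearEquiv 0 := by
    intro v hv
    obtain ⟨c, rfl⟩ := Submodule.mem_span_singleton.1 hv
    rw [map_smul, Module.Basis.map_apply]
    exact Submodule.smul_mem _ _ (Submodule.mem_span_singleton_self _)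
  have hinv : ∀ w ∈ A ∙ b.map e.toLinearEquiv 0, ∃ v ∈ A ∙ b 0, e.toLinearEquiv v = w := by
    intro w hw
    obtain ⟨c, rfl⟩ := Submodule.mem_span_singleton.1 hw
    exact ⟨c • b 0, Submodule.smul_mem _ _ (Submodule.mem_span_singleton_self _),
      by rw [map_smul, Module.Basis.map_apply]⟩
  refine ⟨_, ⟨b.map e.toLinearEquiv, rfl⟩, fun σ hσ w hw => ?_, fun σ hσ w => ?_, fun σ hσ => ?_⟩
  · obtain ⟨v, hv, rfl⟩ := hinv w hw
    rw [← e.map_apply]
    exact hmem (hD σ hσ v hv)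
  · obtain ⟨v, rfl⟩ := e.toLinearEquiv.surjective w
    rw [← e.map_apply, ← map_sub]
    exact hmem (hI σ hσ v)
  · obtain ⟨x, z, hx, hz, hc⟩ := hxz σ hσ
    refine ⟨x, z, fun w hw => ?_, fun w => ?_, hc⟩
    · obtain ⟨v, hv, rfl⟩ := hinv w hw
      rw [← e.map_apply, hx v hv, map_smul]
    · obtain ⟨v, rfl⟩ := e.toLinearEquiv.surjective w
      rw [← e.map_apply, ← map_smul, ← map_sub]
      exact hmem (hz v)

/-- The Tate module over a coefficient ring, with its local properties. -/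
structure CurveRep (W : WeierstrassCurve ℤ) (p : ℕ) [Fact p.Prime] (hΔ : W.Δ ≠ 0) (O : Type)
    [CommRing O] [IsDomain O] [IsDiscreteValuationRing O] [Algebra (ZMod p) (ResidueField O)] :
    Type where
  rho : Gal →* M2 O
  cont : IsCont rho
  detE : (toRep rho cont).DetIsCyclotomic p
  bb : Module.Basis (Fin 2) (ResidueField O) (wRho W p hΔ (ResidueField O)).V
  res : mapM (residue O) rho = matRes (wRho W p hΔ (ResidueField O)) bb
  unr : ∀ ℓ : ℕ, ℓ.Prime → ℓ ≠ p → W.IsGoodPrimeFor ℓ → ∀ A : ValuationSubring QBar,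
    A.LiesOverPrime ℓ → ∀ σ ∈ A.inertiaSubgroupIn ℚ, rho σ = 1
  trGood : ∀ ℓ : ℕ, ℓ.Prime → ℓ ≠ p → W.IsGoodPrimeFor ℓ → ∀ A : ValuationSubring QBar,
    A.LiesOverPrime ℓ → ∀ Fr : Gal, A.IsFrobeniusAt Fr ℓ → (rho Fr).trace = (W.apOfModel ℓ : O)
  trInert : ∀ v : ℕ, v.Prime → v ≠ p → ¬ ((v:ℤ) ∣ W.c₄ ∧ (v:ℤ) ∣ W.Δ) →
    ∀ A : ValuationSubring QBar, A.LiesOverPrime v → ∀ σ ∈ A.inertiaSubgroupIn ℚ,
      (rho σ).trace = 2
  trBad : ∀ v : ℕ, v.Prime → v ≠ p → (v:ℤ) ∣ W.Δ → ¬ (v:ℤ) ∣ W.c₄ →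
    ∀ A : ValuationSubring QBar, A.LiesOverPrime v → ∀ Fr : Gal, A.IsFrobeniusAt Fr v →
      ∃ a : O, a ^ 2 = 1 ∧ (rho Fr).trace = a * (1 + (v : O))
  flatP : W.IsGoodPrimeFor p → (toRep rho cont).IsFlatAt p
  strictP : (p:ℤ) ∣ W.Δ → ¬ (p:ℤ) ∣ W.c₄ → (toRep rho cont).IsStrictOrdinaryAt p

/-- **The Tate module over a coefficient ring.** -/
theorem exists_curveRep (W : WeierstrassCurve ℤ) (p : ℕ) [Fact p.Prime] (hΔ : W.Δ ≠ 0) (O : Type)
    [CommRing O] [IsDomain O] [IsDiscreteValuationRing O] [Algebra (ZMod p) (ResidueField O)]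
    [IsAdicComplete (maximalIdeal O) O] [Finite (ResidueField O)] [CharZero O]
    [CharP (ResidueField O) p] (hp2 : p ≠ 2) : Nonempty (CurveRep W p hΔ O) := by
  have hp : (p : O) ∈ maximalIdeal O := by
    rw [← residue_eq_zero_iff, map_natCast, CharP.cast_eq_zero]
  obtain ⟨ι⟩ := GaloisReps.exists_padicHom O hp
  haveI hloc : IsLocalHom ι := ⟨fun x hx => by
    by_contra hnu
    rw [← mem_nonunits_iff, ← mem_maximalIdeal, PadicInt.maximalIdeal_eq_span_p] at hnu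
    obtain ⟨y, rfl⟩ := Ideal.mem_span_singleton'.1 hnu
    rw [map_mul, map_natCast] at hx
    exact (mem_maximalIdeal _).1 hp (isUnit_of_mul_isUnit_right hx)⟩
  obtain ⟨b, hb⟩ := Lift.exists_residual_basis (p := p) hΔ
  let k := ResidueField O
  have hkey : (residue O).comp ι = (algebraMap (ZMod p) k).comp PadicInt.toZMod := by
    refine RingHom.ext fun x => ?_
    obtain ⟨a, ha⟩ := ZMod.intCast_surjective (PadicInt.toZMod x)
    have hxa : x - a ∈ maximalIdeal ℤ_[p] := by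
      rw [← PadicInt.ker_toZMod, RingHom.mem_ker, map_sub, map_intCast, ha, sub_self]
    have h1 : residue O (ι (x - a)) = 0 := (residue_eq_zero_iff _).2 (map_nonunit ι _ hxa)
    rw [map_sub, map_intCast, map_sub, map_intCast, sub_eq_zero] at h1
    rw [RingHom.comp_apply, RingHom.comp_apply, h1, ← ha, map_intCast]
  let bb : Module.Basis (Fin 2) k (wRho W p hΔ k).V := b.baseChange k
  have hres : mapM (residue O) (Lift.tateMatO hΔ ι) = matRes (wRho W p hΔ k) bb := by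
    rw [mapM_mapM, hkey, ← mapM_mapM, hb]
    refine MonoidHom.ext fun σ => Matrix.ext fun i j => ?_
    rw [mapM_apply, matRes_apply, matRes_apply]
    show _ = (b.baseChange k).repr
      (((EC.Rep.residualRep W p hΔ).ρ σ).baseChange k (b.baseChange k j)) i
    rw [Module.Basis.baseChange_apply, LinearMap.baseChange_tmul,
      Module.Basis.baseChange_repr_tmul, Algebra.smul_def, mul_one]
  refine ⟨⟨Lift.tateMatO hΔ ι, Lift.isCont_tateMatO hΔ ι, Lift.detIsCyclotomic_tateMatO hΔ ι, bb,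
    hres, fun ℓ hℓ hℓp hg A hA σ hσ => ?_, fun ℓ hℓ hℓp hg A hA Fr hFr => ?_,
    fun v hv hvp hss A hA σ hσ => ?_, fun v hv hvp hvΔ hc A hA Fr hFr => ?_, fun hg => ?_,
    fun hd hc => ?_⟩⟩
  · show ι.mapMatrix (Lift.tateMat hΔ σ) = 1
    rw [Lift.tateMat_eq_one_of_good hΔ hℓ hg hℓp hA hσ, map_one]
  · rw [Lift.trace_tateMatO, Lift.trace_tateMat_frobenius hΔ hℓ hg hℓp hA hFr, map_intCast]
  · rw [Lift.trace_tateMatO, Lift.trace_tateMat_inertia hΔ hv hvp hss hA hσ, map_ofNat]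
  · obtain ⟨a, ha, he⟩ := Lift.exists_trace_tateMat_mult (p := p) hΔ hv hvp hvΔ hc hA hFr
    refine ⟨(a : O), by rw [← Int.cast_pow, ha, Int.cast_one], ?_⟩
    rw [Lift.trace_tateMatO, he, map_mul, map_add, map_one, map_intCast, map_natCast]
  · exact Two.Hecke.isFlatAt_map ι inferInstance (Lift.tateMat hΔ) (isCont_matOf _ _) _
      (Patch.isFlatAt_of_isEquiv (isEquiv_toRep_matOf _ _) (EC.Rep.isFlatAt_tateRep hΔ hg))
  · exact isStrictOrdinaryAt_of_isEquiv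
      (isEquiv_baseChangeAlong_matOf ι hloc (EC.Rep.tateRep W p hΔ) (Lift.tateBase hΔ))
      (CFT.Tangent.IsStrictOrdinaryAt.baseChange ι hloc
        (EC.Rep.isStrictOrdinaryAt_tateRep hΔ hp2 hd hc))

end Fermat.Agent.RT.Lift59.Curve

end
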